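import Mathlib
import Fermat.Agent.LT.H556.A0
import Fermat.Agent.LT.T1.Spec
import Fermat.Agent.LT.T2.Spec
import Fermat.Agent.LT.T3.Spec

/-!
# Row LT, tower T2, station T2.10 `SMO_AA` (strong multiplicity one, adelic--adelic): SUB-SPEC v2

OFF-MAIN (helper941, sub-architect of registry row 874).  Definitions, sub-leaf Props, PROVED tops.
v2 = v1 with `ArchTorusC`, `ArchTorusRealC` WEAKENED (no `κ 1 = 1`, no `κ ≠ 0`); nothing else moved.
Nothing is assumed, there is no opaque constant and no placeholder proof.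
Vocabulary: `LT/H556/A0.lean` (helper556), `LT/T1/Spec.lean` (helper54), `LT/T2/Spec.lean`
(helper130), `LT/T3/Spec.lean` (helper14), byte-identical copies.

## The proof which is cut here (Casselman 1973, Miyake 1971, Piatetski-Shapiro; eigenvalue form)

`φ`, `φ'` cusp forms as in A0 for `π`, `π'`, eigenvalues equal outside a finite set; `v₀` prime to
both levels.  `S` = a finite set of finite places containing `v₀`, the places dividing the levels,
the exceptional places and the places where the additive character `ψ` is ramified.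

1. WHITTAKER COEFFICIENT `W_φ(g) = ∫_{K\𝔸} φ(n(x) g) conj ψ(x) dx` (`wh`).  A cuspidal function
   with `W(diag(α,1) g) = 0` for all `α ∈ Kˣ` vanishes at `g` (`WhitDetC`: uniqueness of Fourier
   expansion on the compact group `𝔸/K`, `T3.CompleteNDC`).
2. On the torus `diag(y,1)` the function `W_φ` is a product: at a finite place prime to the level
   the Hecke relation is a three-term recursion (`UnramTorusC`), at an infinite place the bounded
   solution of the Bessel equation is unique (`ArchTorusC`, `ArchTorusRealC`).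
3. KIRILLOV CUT-OFF (`CutoffC`): a finite combination of right translations by unipotent elements
   at `v ∈ S` cuts `W` on the torus down to one orbit `y₀ (1 + 𝔪_v)`.  After the cut-off at all
   `v ∈ S` (and a torus translation of `φ'`) the Whittaker coefficients of `Φ = ∑ cᵢ R(gᵢ) φ` and
   `Φ' = ∑ c'ⱼ R(g'ⱼ) φ'` agree on the torus and do not vanish there (`TorusMatchC`).
4. EXTENSION (`ExtendC`): a cusp function whose Whittaker coefficient vanishes on the torus is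
   zero (weak approximation at the places of the level, Iwasawa decomposition elsewhere, step 1).
   Hence `Φ = Φ' ≠ 0` (`MatchC`).
5. ORTHOGONALITY (`OrthC`): `0 ≠ ⟨Φ, Φ'⟩ = ∑ cᵢ conj c'ⱼ ⟨R(gᵢ)φ, R(g'ⱼ)φ'⟩`, the Petersson pairing is
   invariant under right translations, `K_{v₀}`-averaging turns `R(n(u))`, `u ∈ ϖ⁻¹𝒪`, into the
   Hecke operator of `K diag(ϖ², 1) K = T² - (q+1) S`, so `⟨f, f'⟩ ≠ 0` for two `K_{v₀}`-invariant
   eigenfunctions; `T* = S⁻¹ T`, `S* = S⁻¹` give `a = a'`, `b = b'`.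

Real places: the forms of A0 are `SO(2)`-invariant only, so the PARITY under `diag(-1,1)` at a real
place is an extra datum.  `ParityC` (equal parities can be arranged) is VACUOUS for a totally
complex field (`parityC_of_totCplx`, proved here) -- the only case used by the wall (`T7.FibreC`
has `TotCplx K`).  For a field with a real place `ParityC` and `ArchTorusRealC` are OPTIONAL
leaves.
-/

set_option autoImplicit false

open IsDedekindDomain NumberField MeasureTheory AutomorphicForm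
open Fermat.Agent.LT.H556.A0
open scoped MatrixGroups

noncomputable section

namespace Fermat.Agent.LT.T2.H941

variable {K : Type} [Field K] [NumberField K]

/-! ## 1. Vocabulary -/

/-- Right translation `(R(g) f)(x) = f(x g)`.  `rt g (rt h f) = rt (g * h) f`. -/
def rt (g : G K) (f : G K → ℂ) : G K → ℂ := fun x => f (x * g)

/-- A finite combination of right translates: `∑ᵢ cᵢ R(gᵢ) f`. -/
def lin {n : ℕ} (c : Fin n → ℂ) (g : Fin n → G K) (f : G K → ℂ) : G K → ℂ :=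
  fun x => ∑ i, c i * f (x * g i)

/-- The torus element `diag(y, 1)`, `y` an idele. -/
def tor (y : (Adl K)ˣ) : G K :=
  ⟨!![(y : Adl K), 0; 0, 1], !![((y⁻¹ : (Adl K)ˣ) : Adl K), 0; 0, 1],
    by ext i j; fin_cases i <;> fin_cases j <;> simp [Matrix.mul_apply, Fin.sum_univ_two],
    by ext i j; fin_cases i <;> fin_cases j <;> simp [Matrix.mul_apply, Fin.sum_univ_two]⟩

/-- The idele `y` is supported at the finite place `v`. -/
def IsIdeleAtFin (v : HeightOneSpectrum (𝓞 K)) (y : (Adl K)ˣ) : Prop :=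
  (∀ w : InfinitePlace K, (y : Adl K).1 w = 1) ∧
    ∀ v' : HeightOneSpectrum (𝓞 K), v' ≠ v → (y : Adl K).2 v' = 1

/-- The idele `y` is supported at the infinite place `w`. -/
def IsIdeleAtInf (w : InfinitePlace K) (y : (Adl K)ˣ) : Prop :=
  (∀ w' : InfinitePlace K, w' ≠ w → (y : Adl K).1 w' = 1) ∧
    ∀ v : HeightOneSpectrum (𝓞 K), (y : Adl K).2 v = 1

/-- `p` is supported at `v` and is the unipotent element `n(u) = [[1, u], [0, 1]]` there. -/
def IsUnipAt (v : HeightOneSpectrum (𝓞 K)) (p : G K) (u : v.adicCompletion K) : Prop :=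
  IsLocalAtFin v p ∧ finComp v p = !![1, u; 0, 1]

/-- ADMISSIBLE elements for the place `v₀`: `g = p q` with `p = n(u)` supported at `v₀`,
`u ∈ ϖ⁻¹ 𝒪_{v₀}`, and `q` trivial at `v₀`. -/
def IsAdm (v₀ : HeightOneSpectrum (𝓞 K)) (g : G K) : Prop :=
  ∃ (p q : G K) (u : v₀.adicCompletion K), g = p * q ∧ IsUnipAt v₀ p u ∧
    Valued.v u ≤ WithZero.exp (1 : ℤ) ∧ TrivAtFin v₀ q

/-- `f` is right invariant under `U(𝔪)`. -/
def IsLevel (𝔪 : Ideal (𝓞 K)) (f : G K → ℂ) : Prop :=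
  ∀ u : G K, InLevelGroup 𝔪 u → ∀ g : G K, f (g * u) = f g

/-- `f` is right invariant under `GL₂(𝒪_v)` (embedded at the place `v`). -/
def IsKv (v : HeightOneSpectrum (𝓞 K)) (f : G K → ℂ) : Prop :=
  ∀ k : G K, IsLocalAtFin v k → IsIntegralAt v k → IsIntegralAt v k⁻¹ →
    ∀ g : G K, f (g * k) = f g

/-- The class of functions on which the Petersson pairing of a frame is used: continuous,
bounded, left invariant under `GL₂(K)` and under the diagonal positive scalars `Z⁺` (LEFT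
invariance: the class is then visibly stable under all right translations). -/
def IsAut0 (f : G K → ℂ) : Prop :=
  Continuous f ∧ (∃ C : ℝ, ∀ g : G K, ‖f g‖ ≤ C) ∧
    (∀ (γ : GL (Fin 2) K) (g : G K), f (T1.ratG K γ * g) = f g) ∧
    ∀ z : G K, T2.IsDiagPosScalar z → ∀ g : G K, f (z * g) = f g

/-- `φ` and `φ'` have the same parity at every real place: they are eigenfunctions of the right
translation by `diag(-1, 1)` at `w` with the same eigenvalue. -/
def SameParity (φ φ' : G K → ℂ) : Prop :=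
  ∀ w : InfinitePlace K, w.IsReal → ∀ e : G K, IsLocalAtInf w e →
    infComp w e = !![-1, 0; 0, 1] →
    ∃ ε : ℂ, (∀ g : G K, φ (g * e) = ε * φ g) ∧ ∀ g : G K, φ' (g * e) = ε * φ' g

/-- WHITTAKER DATA: a non-degenerate standard character `ψ` of `𝔸_K / K` with conductor `𝒪_v` at
almost all `v` (the character of `T3.GoodCharExistsC`), a Haar measure `ν` of `𝔸_K` (Borel) and a
Borel fundamental domain `D` of `K` in `𝔸_K` of finite measure. -/
def IsWhitData (ψ : AddChar (Adl K) Circle) {m : MeasurableSpace (Adl K)}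
    (ν : Measure (Adl K)) (D : Set (Adl K)) : Prop :=
  T3.IsStdChar K ψ ∧ T3.IsNonDeg K ψ ∧ T3.IsUnramAE K ψ ∧ ν.IsAddHaarMeasure ∧
    MeasurableSet D ∧ IsAddFundamentalDomain (T1.princ K) D ν ∧ ν D < ⊤

/-- THE WHITTAKER COEFFICIENT `W_f(g) = ∫_D f(n(x) g) conj ψ(x) dν(x)`. -/
def wh (ψ : AddChar (Adl K) Circle) {m : MeasurableSpace (Adl K)} (ν : Measure (Adl K))
    (D : Set (Adl K)) (f : G K → ℂ) (g : G K) : ℂ :=
  ∫ x in D, f (T3.unip K x * g) * (starRingEnd ℂ) ((ψ x : Circle) : ℂ) ∂ν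

/-- `d` is the CONDUCTOR EXPONENT of `ψ` at `v`: `ψ_v` is trivial on `ϖ^{-d} 𝒪_v` and not on
`ϖ^{-d-1} 𝒪_v`.  (`T3.IsUnramAE`: `d = 0` at almost all `v`.) -/
def IsCondExp (ψ : AddChar (Adl K) Circle) (v : HeightOneSpectrum (𝓞 K)) (d : ℤ) : Prop :=
  (∀ x : Adl K, T3.IsLocAdeleAt K v x → Valued.v (x.2 v) ≤ WithZero.exp d → ψ x = 1) ∧
    ∃ x : Adl K, T3.IsLocAdeleAt K v x ∧ Valued.v (x.2 v) = WithZero.exp (d + 1) ∧ ψ x ≠ 1

/-- `y` lies in the orbit of `y₀` under the torus of `U(𝔪)_v`: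
`y / y₀ ≡ 1` and `y₀ / y ≡ 1` modulo `𝔪 𝒪_v` (for `v ∤ 𝔪`: `y / y₀ ∈ 𝒪_vˣ`). -/
def InOrbit (𝔪 : Ideal (𝓞 K)) (v : HeightOneSpectrum (𝓞 K)) (y y₀ : (Adl K)ˣ) : Prop :=
  ((y * y₀⁻¹ : (Adl K)ˣ) : Adl K).2 v - 1 ∈ idealClosure 𝔪 v ∧
    ((y₀ * y⁻¹ : (Adl K)ˣ) : Adl K).2 v - 1 ∈ idealClosure 𝔪 v

/-- What `ExtendC` needs of a function: a cusp function of level `U(𝔪)` (`T2.IsCuspFn`) which is
an eigenfunction of the scalar uniformisers at the places prime to `𝔪`. -/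
def IsExtendable (𝔪 : Ideal (𝓞 K)) (Ψ : G K → ℂ) : Prop :=
  T2.IsCuspFn 𝔪 Ψ ∧
    ∀ v : HeightOneSpectrum (𝓞 K), ¬ v.asIdeal ∣ 𝔪 →
      ∃ b : ℂ, ∀ z : G K, IsScalarUniformizerAt v z → ∀ g : G K, Ψ (g * z) = b * Ψ g


/-! ## 2. The three stages -/

variable (K)

/-- **STAGE 0 (parity).**  Two eigensystems of adelic cusp forms which agree almost everywhere
are the eigensystems of two forms with the same parities at the real places.  VACUOUS for a
totally complex field; OPTIONAL leaf otherwise (it is a consequence of strong multiplicity one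
with archimedean components, [Jacquet--Langlands §11], not of the argument cut here). -/
def ParityC : Prop :=
  ∀ π π' : HeckeEigensystem K ℂ, IsCuspAdelicSph0 K π → IsCuspAdelicSph0 K π' →
    HeckeEigensystem.AgreesAwayFromFinite π π' →
    ∃ φ φ' : G K → ℂ, IsSph0CuspFormFor π φ ∧ IsSph0CuspFormFor π' φ' ∧ SameParity φ φ'

/-- **STAGE A (a common vector).**  There are finite combinations of right translates of `φ` and
of `φ'`, by admissible elements for `v₀`, which are EQUAL and not zero. -/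
def MatchC : Prop :=
  ∀ (π π' : HeckeEigensystem K ℂ) (φ φ' : G K → ℂ),
    IsSph0CuspFormFor π φ → IsSph0CuspFormFor π' φ' → SameParity φ φ' →
    HeckeEigensystem.AgreesAwayFromFinite π π' →
    ∀ v₀ : HeightOneSpectrum (𝓞 K), ¬ v₀.asIdeal ∣ π.level → ¬ v₀.asIdeal ∣ π'.level →
      ∃ (n n' : ℕ) (c : Fin n → ℂ) (g : Fin n → G K) (c' : Fin n' → ℂ) (g' : Fin n' → G K),
        (∀ i, IsAdm v₀ (g i)) ∧ (∀ j, IsAdm v₀ (g' j)) ∧
        lin c g φ = lin c' g' φ' ∧ ∃ x : G K, lin c g φ x ≠ 0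

/-- **STAGE B (orthogonality).**  If finite combinations of right translates of `φ` and of `φ'`
by admissible elements for `v₀` are equal and not zero, the eigenvalues at `v₀` are equal. -/
def OrthC : Prop :=
  ∀ (π π' : HeckeEigensystem K ℂ) (φ φ' : G K → ℂ),
    IsSph0CuspFormFor π φ → IsSph0CuspFormFor π' φ' →
    ∀ v₀ : HeightOneSpectrum (𝓞 K), ¬ v₀.asIdeal ∣ π.level → ¬ v₀.asIdeal ∣ π'.level →
      ∀ (n n' : ℕ) (c : Fin n → ℂ) (g : Fin n → G K) (c' : Fin n' → ℂ) (g' : Fin n' → G K),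
        (∀ i, IsAdm v₀ (g i)) → (∀ j, IsAdm v₀ (g' j)) →
        lin c g φ = lin c' g' φ' → (∃ x : G K, lin c g φ x ≠ 0) →
        π.a v₀ = π'.a v₀ ∧ π.b v₀ = π'.b v₀

/-! ## 3. Sub-leaves of stage A -/

/-- **Whittaker data exist** (`T3.GoodCharExistsC`, `T1.LocCompC`, `T1.AddFundDomC`). -/
def WhitDataExistsC : Prop :=
  letI : MeasurableSpace (Adl K) := borel (Adl K)
  ∃ (ψ : AddChar (Adl K) Circle) (ν : Measure (Adl K)) (D : Set (Adl K)), IsWhitData ψ ν D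

/-- **A.1 FOURIER UNIQUENESS along `N`.**  `Φ` continuous, left invariant under `N(K)` and under
the rational torus `diag(α, 1)`, cuspidal: if `W_Φ(diag(α,1) g) = 0` for all `α ∈ Kˣ` then
`Φ(g) = 0`.  (`x ↦ Φ(n(x) g)` is a continuous function on the compact group `𝔸_K / K`; its
Fourier coefficient at `η ≠ 0` is `W_Φ(diag(-η, 1) g)` by the substitution `x ↦ -η⁻¹ x`
(`T3.HaarScaleC`, independence of the fundamental domain), at `η = 0` it vanishes by
cuspidality; `T3.CompleteNDC`.) -/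
def WhitDetC : Prop :=
  letI : MeasurableSpace (Adl K) := borel (Adl K)
  ∀ (ψ : AddChar (Adl K) Circle) (ν : Measure (Adl K)) (D : Set (Adl K)), IsWhitData ψ ν D →
  ∀ Φ : G K → ℂ, Continuous Φ →
    (∀ (ξ : K) (g : G K), Φ (T3.unip K (algebraMap K (Adl K) ξ) * g) = Φ g) →
    (∀ (α : Kˣ) (g : G K), Φ (T3.torK K α * g) = Φ g) → IsCuspidalFn Φ →
    ∀ g : G K, (∀ α : Kˣ, wh ψ ν D Φ (T3.torK K α * g) = 0) → Φ g = 0

/-- **A.2 WEAK APPROXIMATION for `GL₂`** at the places dividing `𝔪`: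
`GL₂(𝔸_K) = GL₂(K) · {g : g_v ∈ U(𝔪)_v for all v ∣ 𝔪}`.  (`K` is dense in `∏_{v ∣ 𝔪} K_v`,
`GL₂` is open in `M₂`.)  Mathlib only. -/
def WeakApproxC : Prop :=
  ∀ 𝔪 : Ideal (𝓞 K), 𝔪 ≠ ⊥ → ∀ g : G K, ∃ γ : GL (Fin 2) K,
    ∀ v : HeightOneSpectrum (𝓞 K), v.asIdeal ∣ 𝔪 → ∀ i j : Fin 2,
      (finComp v (T1.ratG K γ * g) - 1) i j ∈ idealClosure 𝔪 v ∧
        (finComp v (T1.ratG K γ * g)⁻¹ - 1) i j ∈ idealClosure 𝔪 v

/-- **A.3 EXTENSION.**  A cusp function of level `U(𝔪)`, eigenfunction of the scalar uniformisers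
at the places prime to `𝔪`, whose Whittaker coefficient vanishes on the torus `diag(y, 1)`,
`y ∈ 𝔸_Kˣ`, is zero.  (Weak approximation: `g` may be taken trivial at `v ∣ 𝔪`; Iwasawa
decomposition at the other places: `diag(α,1) g = n(x) diag(y,1) z k`; then `WhitDetC`.) -/
def ExtendC : Prop :=
  letI : MeasurableSpace (Adl K) := borel (Adl K)
  ∀ (ψ : AddChar (Adl K) Circle) (ν : Measure (Adl K)) (D : Set (Adl K)), IsWhitData ψ ν D →
  ∀ 𝔪 : Ideal (𝓞 K), 𝔪 ≠ ⊥ → ∀ Ψ : G K → ℂ, IsExtendable 𝔪 Ψ →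
    (∀ y : (Adl K)ˣ, wh ψ ν D Ψ (tor y) = 0) → ∀ g : G K, Ψ g = 0

/-- **A.4 THE CONDUCTOR EXISTS** at every finite place (`ψ` is continuous and non-degenerate). -/
def CondExistsC : Prop :=
  ∀ ψ : AddChar (Adl K) Circle, T3.IsStdChar K ψ → T3.IsNonDeg K ψ →
    ∀ v : HeightOneSpectrum (𝓞 K), ∃ d : ℤ, IsCondExp ψ v d

/-- **A.5 UNRAMIFIED RECURSION.**  At a finite place `v` where `Φ` is `GL₂(𝒪_v)`-invariant and a
Hecke eigenfunction with eigenvalues `(a, b)`, the Whittaker coefficient on the torus at `v` is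
`λ(ord)` times its value at the conductor point, for a function `λ` which depends on `ψ`, `v`,
`a`, `b` only: with `m = ord_v(y) + d`, `λ = 0` for `m < 0`, `λ = 1` for `m = 0` and
`q λ_{m+1} = √q a λ_m - b λ_{m-1}`.  (Evaluate `T_v` on the standard coset system
`[[ϖ, r], [0, 1]]`, `[[1, 0], [0, ϖ]]` at `diag(y,1) g`.) -/
def UnramTorusC : Prop :=
  letI : MeasurableSpace (Adl K) := borel (Adl K)
  ∀ (ψ : AddChar (Adl K) Circle) (ν : Measure (Adl K)) (D : Set (Adl K)), IsWhitData ψ ν D →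
  ∀ (v : HeightOneSpectrum (𝓞 K)) (d : ℤ), IsCondExp ψ v d →
    ∃ lam : ℂ → ℂ → ℤ → ℂ, (∀ a b : ℂ, lam a b d = 1) ∧
      ∀ (Φ : G K → ℂ) (a b : ℂ), Continuous Φ → (∃ C : ℝ, ∀ g : G K, ‖Φ g‖ ≤ C) →
        (∀ (γ : GL (Fin 2) K) (g : G K), Φ (T1.ratG K γ * g) = Φ g) →
        IsKv v Φ → IsHeckeEigenAt Φ v a b →
        ∀ y y₀ : (Adl K)ˣ, IsIdeleAtFin v y → IsIdeleAtFin v y₀ →
          Valued.v ((y₀ : Adl K).2 v) = WithZero.exp d →
          ∀ g : G K, TrivAtFin v g →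
            wh ψ ν D Φ (tor y * g)
              = lam a b (WithZero.log (Valued.v ((y : Adl K).2 v))) * wh ψ ν D Φ (tor y₀ * g)

/-- **A.6 ARCHIMEDEAN UNIQUENESS, complex place.**  There is a function `κ` on `K_w`, depending
on `ψ` and `w` only, such that for every bounded continuous automorphic function `Φ` which is right
invariant under the positive scalars and under `U(2)` at `w` and has the mean value property of
parameter `0` at `w`:
`W_Φ(diag(y,1) g) = κ(y_w) W_Φ(g)` for `y` supported at `w` and `g` trivial at `w`.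
(`h ↦ W_Φ(h g)` on `GL₂(ℂ)` is `(N, ψ_w)`-equivariant, bounded, and an eigenfunction of the
Laplacian of `ℍ³` with eigenvalue `-1`: `F(r) = W(diag(r,1))` satisfies
`r² F'' - r F' + (1 - k² r²) F = 0`, whose bounded solutions are the multiples of `r K₀(k r)`.)
v2: NO normalisation and NO non-vanishing of `κ` is claimed (the assembly does not use them), so
that `κ` need not be constructed: the leaf is the statement that the bounded solutions form a
space of dimension at most one (`u = F / r` real: `(r u u')' = r u'² + k² r u² ≥ 0`, so `u²` is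
non-increasing for a bounded `F`; a bounded solution with a zero vanishes). -/
def ArchTorusC : Prop :=
  letI : MeasurableSpace (Adl K) := borel (Adl K)
  ∀ (ψ : AddChar (Adl K) Circle) (ν : Measure (Adl K)) (D : Set (Adl K)), IsWhitData ψ ν D →
  ∀ w : InfinitePlace K, w.IsComplex →
    ∃ κ : w.Completion → ℂ,
      ∀ Φ : G K → ℂ, Continuous Φ → (∃ C : ℝ, ∀ g : G K, ‖Φ g‖ ≤ C) →
        (∀ (γ : GL (Fin 2) K) (g : G K), Φ (T1.ratG K γ * g) = Φ g) →
        (∀ z : G K, IsArchPosScalar w z → ∀ g : G K, Φ (g * z) = Φ g) →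
        (∀ k : G K, IsArchCompact w k → ∀ g : G K, Φ (g * k) = Φ g) →
        MeanValueComplex Φ w →
        ∀ y : (Adl K)ˣ, IsIdeleAtInf w y → ∀ g : G K, TrivAtInf w g →
          wh ψ ν D Φ (tor y * g) = κ ((y : Adl K).1 w) * wh ψ ν D Φ g

/-- **A.7 ARCHIMEDEAN UNIQUENESS, real place, positive part of the torus** (OPTIONAL: not needed
for a totally complex field).  `F(r) = W(diag(r,1))`, `r > 0`, is a bounded solution of
`r² F'' + (1/4 - k² r²) F = 0`, a multiple of `√r K₀(k r)`. -/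
def ArchTorusRealC : Prop :=
  letI : MeasurableSpace (Adl K) := borel (Adl K)
  ∀ (ψ : AddChar (Adl K) Circle) (ν : Measure (Adl K)) (D : Set (Adl K)), IsWhitData ψ ν D →
  ∀ w : InfinitePlace K, w.IsReal →
    ∃ κ : ℝ → ℂ,
      ∀ Φ : G K → ℂ, Continuous Φ → (∃ C : ℝ, ∀ g : G K, ‖Φ g‖ ≤ C) →
        (∀ (γ : GL (Fin 2) K) (g : G K), Φ (T1.ratG K γ * g) = Φ g) →
        (∀ z : G K, IsArchPosScalar w z → ∀ g : G K, Φ (g * z) = Φ g) →
        (∀ k : G K, IsArchCompact w k → ∀ g : G K, Φ (g * k) = Φ g) →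
        MeanValueReal Φ w →
        ∀ y : (Adl K)ˣ, IsIdeleAtInf w y → ∀ r : ℝ, 0 < r →
          InfinitePlace.Completion.extensionEmbedding w ((y : Adl K).1 w) = (r : ℂ) →
          ∀ g : G K, TrivAtInf w g →
            wh ψ ν D Φ (tor y * g) = κ r * wh ψ ν D Φ g

/-- **A.8 KIRILLOV CUT-OFF at a finite place.**  For a level `𝔪` and an idele `y₀` at `v` there
is a finite combination `A = ∑ᵢ cᵢ R(n(uᵢ))` of right translations by unipotent elements at `v`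
(depending on `ψ`, `v`, `𝔪`, `y₀` only) and a level `𝔪'` (differing from `𝔪` at `v` only) such that
for every bounded continuous automorphic `Φ` of level `U(𝔪)`: `A Φ` has level `U(𝔪')` and
`W_{AΦ}(diag(y,1) g) = W_Φ(diag(y₀,1) g)` if `y ∈ y₀ (1 + 𝔪 𝒪_v)` (for `v ∤ 𝔪`: `y ∈ y₀ 𝒪_vˣ`),
and `= 0` otherwise (`y` at `v`, `g` trivial at `v`).  If `v ∤ 𝔪` and `y₀` is the conductor point
then `uᵢ ∈ ϖ⁻¹ 𝒪_v` (`A = 1 - q⁻¹ ∑_{r mod ϖ} R(n(r / ϖ))`).
(`W(diag(y,1) g n(u)) = ψ_v(y u) W(diag(y,1) g)`; orthogonality of the characters of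
`ϖ^{-L} 𝒪_v / ϖ^{M} 𝒪_v`; `W(diag(y,1) g) = 0` unless `ψ_v(y 𝔪 𝒪_v) = 1`.) -/
def CutoffC : Prop :=
  letI : MeasurableSpace (Adl K) := borel (Adl K)
  ∀ (ψ : AddChar (Adl K) Circle) (ν : Measure (Adl K)) (D : Set (Adl K)), IsWhitData ψ ν D →
  ∀ (v : HeightOneSpectrum (𝓞 K)) (d : ℤ), IsCondExp ψ v d →
  ∀ 𝔪 : Ideal (𝓞 K), 𝔪 ≠ ⊥ → ∀ y₀ : (Adl K)ˣ, IsIdeleAtFin v y₀ →
    ∃ (n : ℕ) (c : Fin n → ℂ) (p : Fin n → G K) (𝔪' : Ideal (𝓞 K)),
      𝔪' ≠ ⊥ ∧ 𝔪' ≤ 𝔪 ∧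
      (∀ v' : HeightOneSpectrum (𝓞 K), v' ≠ v → v'.asIdeal ∣ 𝔪' → v'.asIdeal ∣ 𝔪) ∧
      (∀ i, ∃ u : v.adicCompletion K, IsUnipAt v (p i) u ∧
        (¬ v.asIdeal ∣ 𝔪 → Valued.v ((y₀ : Adl K).2 v) = WithZero.exp d →
          Valued.v u ≤ WithZero.exp (1 : ℤ))) ∧
      ∀ Φ : G K → ℂ, Continuous Φ → (∃ C : ℝ, ∀ g : G K, ‖Φ g‖ ≤ C) →
        (∀ (γ : GL (Fin 2) K) (g : G K), Φ (T1.ratG K γ * g) = Φ g) → IsLevel 𝔪 Φ →
        IsLevel 𝔪' (lin c p Φ) ∧
        ∀ y : (Adl K)ˣ, IsIdeleAtFin v y → ∀ g : G K, TrivAtFin v g →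
          (InOrbit 𝔪 v y y₀ → wh ψ ν D (lin c p Φ) (tor y * g) = wh ψ ν D Φ (tor y₀ * g)) ∧
          (¬ InOrbit 𝔪 v y y₀ → wh ψ ν D (lin c p Φ) (tor y * g) = 0)

/-- **A.9 MATCHING ON THE TORUS** (assembly of A.3 -- A.8).  For Whittaker data `(ψ, ν, D)` there
are finite combinations `Φ = ∑ cᵢ R(gᵢ) φ`, `Φ' = ∑ c'ⱼ R(g'ⱼ) φ'` by admissible elements for `v₀`
such that `Φ - Φ'` is extendable of some level, `W_Φ ≠ 0` somewhere on the torus and
`W_{Φ - Φ'} = 0` on the torus. -/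
def TorusMatchC : Prop :=
  letI : MeasurableSpace (Adl K) := borel (Adl K)
  ∀ (ψ : AddChar (Adl K) Circle) (ν : Measure (Adl K)) (D : Set (Adl K)), IsWhitData ψ ν D →
  ∀ (π π' : HeckeEigensystem K ℂ) (φ φ' : G K → ℂ),
    IsSph0CuspFormFor π φ → IsSph0CuspFormFor π' φ' → SameParity φ φ' →
    HeckeEigensystem.AgreesAwayFromFinite π π' →
    ∀ v₀ : HeightOneSpectrum (𝓞 K), ¬ v₀.asIdeal ∣ π.level → ¬ v₀.asIdeal ∣ π'.level →
      ∃ (n n' : ℕ) (c : Fin n → ℂ) (g : Fin n → G K) (c' : Fin n' → ℂ) (g' : Fin n' → G K)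
        (𝔪 : Ideal (𝓞 K)), 𝔪 ≠ ⊥ ∧
        (∀ i, IsAdm v₀ (g i)) ∧ (∀ j, IsAdm v₀ (g' j)) ∧
        IsExtendable 𝔪 (fun x => lin c g φ x - lin c' g' φ' x) ∧
        (∃ y : (Adl K)ˣ, wh ψ ν D (lin c g φ) (tor y) ≠ 0) ∧
        ∀ y : (Adl K)ˣ, wh ψ ν D (fun x => lin c g φ x - lin c' g' φ' x) (tor y) = 0

/-! ## 4. Sub-leaves of stage B -/

/-- **B.1** The forms of A0 lie in the class `IsAut0` (a diagonal positive scalar is central and
is a product of positive scalars at the infinite places). -/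
def Aut0C : Prop :=
  ∀ (π : HeckeEigensystem K ℂ) (φ : G K → ℂ), IsSph0CuspFormFor π φ → IsAut0 φ

/-- **B.2 THE PETERSSON PAIRING of a frame on `IsAut0`**: additive in the first variable,
definite, invariant under ALL right translations (`T1.UnimodC`; `D g` is a fundamental domain in
the slab `‖det g‖ ≤ ‖det‖ < 2 ‖det g‖`, which is cut and moved back into `T1.slab` by an element
of `Z⁺`; the integrand is invariant under `GL₂(K)` and `Z⁺`). -/
def PairC : Prop :=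
  ∀ F : T2.Frame K,
    (∀ f₁ f₂ h : G K → ℂ, IsAut0 f₁ → IsAut0 f₂ → IsAut0 h →
      T2.pair F (fun x => f₁ x + f₂ x) h = T2.pair F f₁ h + T2.pair F f₂ h) ∧
    (∀ f : G K → ℂ, IsAut0 f → T2.pair F f f = 0 → ∀ x : G K, f x = 0) ∧
    ∀ (g : G K) (f₁ f₂ : G K → ℂ), IsAut0 f₁ → IsAut0 f₂ →
      T2.pair F (rt g f₁) (rt g f₂) = T2.pair F f₁ f₂

/-- **B.3 THE ADJOINT OF `T_v` IS `S_v⁻¹ T_v`** on `GL₂(𝒪_v)`-invariant functions.
(`⟨R(h) f₁, f₂⟩ = ⟨f₁, R(h⁻¹) f₂⟩`, and `y ↦ ⟨f₁, R(y) f₂⟩` is constant on the double coset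
`K h⁻¹ K = z⁻¹ K h' K` (`z h⁻¹` is integral of determinant a uniformiser); both sums have `q + 1`
terms.  CAUTION: `h ↦ z h⁻¹ K` is NOT a bijection of the right cosets; use the averaging.) -/
def HeckeAdjC : Prop :=
  ∀ (F : T2.Frame K) (v : HeightOneSpectrum (𝓞 K)) (f₁ f₂ : G K → ℂ),
    IsAut0 f₁ → IsAut0 f₂ → IsKv v f₁ → IsKv v f₂ →
    ∀ H : Finset (G K), IsHeckeCosetSystem v H → ∀ z : G K, IsScalarUniformizerAt v z →
      T2.pair F (T2.heckeSum H f₁) f₂ = T2.pair F f₁ (rt z⁻¹ (T2.heckeSum H f₂))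

/-- **B.4 STRIPPING A UNIPOTENT TRANSLATION.**  For `GL₂(𝒪_v)`-invariant `f`, `f₂`, `f` a Hecke
eigenfunction at `v`, and `p = n(u)`, `p' = n(u')` at `v` with `u, u' ∈ ϖ⁻¹ 𝒪_v`:
`⟨R(p) f, R(p') f₂⟩ = κ ⟨f, f₂⟩`.  (`= ⟨R(n(u - u')) f, f₂⟩`; for `u - u'` integral `κ = 1`;
otherwise average over `K n(u - u') K = ϖ⁻¹ K diag(ϖ², 1) K`, `q² + q` cosets, and
`T_{(2,0)} = T² - (q + 1) S`: `κ = (q a² - (q + 1) b) / (b q (q + 1))`.) -/
def HeckeStripC : Prop :=
  ∀ (F : T2.Frame K) (v : HeightOneSpectrum (𝓞 K)) (f f₂ : G K → ℂ) (a b : ℂ),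
    IsAut0 f → IsAut0 f₂ → IsKv v f → IsKv v f₂ → IsHeckeEigenAt f v a b →
    ∀ (p p' : G K) (u u' : v.adicCompletion K), IsUnipAt v p u → IsUnipAt v p' u' →
      Valued.v u ≤ WithZero.exp (1 : ℤ) → Valued.v u' ≤ WithZero.exp (1 : ℤ) →
      ∃ κ : ℂ, T2.pair F (rt p f) (rt p' f₂) = κ * T2.pair F f f₂

/-- **B.5 BOOK-KEEPING** (elements supported at `v` commute with elements trivial at `v`;
`U(𝔫)_v = GL₂(𝒪_v)` for `v ∤ 𝔫`). -/
def BookC : Prop :=
  (∀ (𝔫 : Ideal (𝓞 K)) (v : HeightOneSpectrum (𝓞 K)) (f : G K → ℂ),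
    ¬ v.asIdeal ∣ 𝔫 → IsLevel 𝔫 f → IsKv v f) ∧
  (∀ (v : HeightOneSpectrum (𝓞 K)) (q : G K) (f : G K → ℂ),
    TrivAtFin v q → IsKv v f → IsKv v (rt q f)) ∧
  ∀ (v : HeightOneSpectrum (𝓞 K)) (q : G K) (f : G K → ℂ) (a b : ℂ),
    TrivAtFin v q → IsHeckeEigenAt f v a b → IsHeckeEigenAt (rt q f) v a b

/-! ## 5. The leaves in hypothesis-parametrised form (registry rows `T2.10.xx`) -/

/-- T2.10.01 (OPTIONAL; vacuous for totally complex `K`, see `parityC_of_totCplx`). -/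
def Leaf01 : Prop := ParityC K
/-- T2.10.02 (≈ 0.3k). -/
def Leaf02 : Prop := T1.T1Out K → T3.GoodCharExistsC K → WhitDataExistsC K
/-- T2.10.03 (≈ 1k). -/
def Leaf03 : Prop := T1.T1Out K → T3.CompleteNDC K → T3.HaarScaleC K → WhitDetC K
/-- T2.10.04 (≈ 0.8k, Mathlib only). -/
def Leaf04 : Prop := WeakApproxC K
/-- T2.10.05 (≈ 2.5k). -/
def Leaf05 : Prop := T1.T1Out K → WhitDetC K → WeakApproxC K → ExtendC K
/-- T2.10.06 (≈ 0.4k). -/
def Leaf06 : Prop := T1.T1Out K → CondExistsC K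
/-- T2.10.07 (≈ 2k). -/
def Leaf07 : Prop := T1.T1Out K → UnramTorusC K
/-- T2.10.08 (≥ 3k, analysis; the owner splits: mean value property ⇒ smooth ⇒ Bessel equation;
bounded solutions). -/
def Leaf08 : Prop := T1.T1Out K → ArchTorusC K
/-- T2.10.09 (OPTIONAL, as T2.10.08). -/
def Leaf09 : Prop := T1.T1Out K → ArchTorusRealC K
/-- T2.10.10 (≈ 2k). -/
def Leaf10 : Prop := T1.T1Out K → CutoffC K
/-- T2.10.11 (≈ 3k, ASSEMBLY of the torus). -/
def Leaf11 : Prop :=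
  T1.T1Out K → ExtendC K → CondExistsC K → UnramTorusC K → ArchTorusC K → ArchTorusRealC K →
    CutoffC K → TorusMatchC K
/-- T2.10.12 (≈ 0.3k). -/
def Leaf12 : Prop := Aut0C K
/-- T2.10.13 (≈ 1.5k). -/
def Leaf13 : Prop := T1.T1Out K → PairC K
/-- T2.10.14 (≈ 1k). -/
def Leaf14 : Prop := T1.T1Out K → PairC K → HeckeAdjC K
/-- T2.10.15 (≈ 2k). -/
def Leaf15 : Prop := T1.T1Out K → PairC K → HeckeStripC K
/-- T2.10.16 (≈ 0.3k). -/
def Leaf16 : Prop := BookC K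


/-! ## 6. The proved tops -/

variable {K}

theorem rt_rt (g h : G K) (f : G K → ℂ) : rt g (rt h f) = rt (g * h) f := by
  funext x
  simp [rt, mul_assoc]

theorem rt_one (f : G K → ℂ) : rt (1 : G K) f = f := by
  funext x
  simp [rt]

variable (K)

/-- `ParityC` is vacuous for a totally complex field. -/
theorem parityC_of_totCplx (h : ∀ w : InfinitePlace K, w.IsComplex) : ParityC K := by
  intro π π' hπ hπ' _
  obtain ⟨φ, hφ⟩ := hπ
  obtain ⟨φ', hφ'⟩ := hπ'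
  refine ⟨φ, φ', hφ, hφ', ?_⟩
  intro w hw
  exact absurd (h w) (InfinitePlace.not_isComplex_iff_isReal.mpr hw)

/-- **STAGE A from the torus**: `TorusMatchC` and `ExtendC` give `MatchC`. -/
theorem match_of (hW : WhitDataExistsC K) (hT : TorusMatchC K) (hE : ExtendC K) : MatchC K := by
  intro π π' φ φ' hφ hφ' hpar hag v₀ hv hv'
  obtain ⟨ψ, ν, D, hdata⟩ := hW
  obtain ⟨n, n', c, g, c', g', 𝔪, h𝔪, ha, ha', hext, ⟨y, hy⟩, hzero⟩ :=
    hT ψ ν D hdata π π' φ φ' hφ hφ' hpar hag v₀ hv hv'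
  have h0 := hE ψ ν D hdata 𝔪 h𝔪 _ hext hzero
  have heq : lin c g φ = lin c' g' φ' := by
    funext x
    exact sub_eq_zero.mp (h0 x)
  refine ⟨n, n', c, g, c', g', ha, ha', heq, ?_⟩
  by_contra hcon
  simp only [not_exists, not_not] at hcon
  apply hy
  have h1 : lin c g φ = fun _ => 0 := funext hcon
  simp [wh, h1]

/-- **THE TOP of station T2.10**: strong multiplicity one from the three stages. -/
theorem smoAA_of_stages (hP : ParityC K) (hM : MatchC K) (hO : OrthC K) : T2.SMO_AA K := by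
  intro π π' hπ hπ' hag v hv hv'
  obtain ⟨φ, φ', hφ, hφ', hpar⟩ := hP π π' hπ hπ' hag
  obtain ⟨n, n', c, g, c', g', ha, ha', heq, hne⟩ := hM π π' φ φ' hφ hφ' hpar hag v hv hv'
  exact hO π π' φ φ' hφ hφ' v hv hv' n n' c g c' g' ha ha' heq hne


/-! ### Stage B from its leaves -/

variable {K}

attribute [local instance] Fermat.Agent.LT.T2.borelG

theorem isAut0_rt (g : G K) {f : G K → ℂ} (hf : IsAut0 f) : IsAut0 (rt g f) := by
  obtain ⟨hc, ⟨C, hC⟩, hl, hz⟩ := hf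
  refine ⟨hc.comp (continuous_mul_const g), ⟨C, fun x => hC _⟩, ?_, ?_⟩
  · intro γ x
    simp only [rt, mul_assoc]
    exact hl γ (x * g)
  · intro z hzz x
    simp only [rt, mul_assoc]
    exact hz z hzz (x * g)

theorem isAut0_zero : IsAut0 (fun _ : G K => (0 : ℂ)) :=
  ⟨continuous_const, ⟨0, by simp⟩, by simp, by simp⟩

theorem isAut0_add {f₁ f₂ : G K → ℂ} (h₁ : IsAut0 f₁) (h₂ : IsAut0 f₂) :
    IsAut0 (fun x => f₁ x + f₂ x) := by
  obtain ⟨hc₁, ⟨C₁, hC₁⟩, hl₁, hz₁⟩ := h₁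
  obtain ⟨hc₂, ⟨C₂, hC₂⟩, hl₂, hz₂⟩ := h₂
  refine ⟨hc₁.add hc₂, ⟨C₁ + C₂, fun x => ?_⟩, ?_, ?_⟩
  · exact (norm_add_le _ _).trans (add_le_add (hC₁ x) (hC₂ x))
  · intro γ x
    simp only [hl₁ γ x, hl₂ γ x]
  · intro z hz x
    simp only [hz₁ z hz x, hz₂ z hz x]

theorem isAut0_smul (c : ℂ) {f : G K → ℂ} (h : IsAut0 f) : IsAut0 (fun x => c * f x) := by
  obtain ⟨hc, ⟨C, hC⟩, hl, hz⟩ := h
  refine ⟨continuous_const.mul hc, ⟨‖c‖ * C, fun x => ?_⟩, ?_, ?_⟩
  · rw [norm_mul]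
    exact mul_le_mul_of_nonneg_left (hC x) (norm_nonneg c)
  · intro γ x
    simp only [hl γ x]
  · intro z hzz x
    simp only [hz z hzz x]

theorem isAut0_sum {ι : Type} (s : Finset ι) (c : ι → ℂ) (f : ι → G K → ℂ)
    (h : ∀ i, IsAut0 (f i)) : IsAut0 (fun x => ∑ i ∈ s, c i * f i x) := by
  classical
  induction s using Finset.induction_on with
  | empty => simpa using isAut0_zero (K := K)
  | insert a s ha ih =>
    have h1 : (fun x => ∑ i ∈ insert a s, c i * f i x)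
        = fun x => c a * f a x + ∑ i ∈ s, c i * f i x := by
      funext x
      rw [Finset.sum_insert ha]
    rw [h1]
    exact isAut0_add (isAut0_smul (c a) (h a)) ih

theorem pair_smul_left (F : T2.Frame K) (c : ℂ) (f h : G K → ℂ) :
    T2.pair F (fun x => c * f x) h = c * T2.pair F f h := by
  unfold T2.pair
  simp_rw [mul_assoc]
  exact MeasureTheory.integral_const_mul _ _

theorem pair_conj (F : T2.Frame K) (f h : G K → ℂ) :
    T2.pair F h f = (starRingEnd ℂ) (T2.pair F f h) := by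
  unfold T2.pair
  rw [← integral_conj]
  congr 1
  funext x
  simp [mul_comm]

theorem pair_smul_right (F : T2.Frame K) (c : ℂ) (f h : G K → ℂ) :
    T2.pair F f (fun x => c * h x) = (starRingEnd ℂ) c * T2.pair F f h := by
  rw [pair_conj, pair_smul_left, map_mul, ← pair_conj]

theorem pair_zero_right (F : T2.Frame K) (f : G K → ℂ) :
    T2.pair F f (fun _ => 0) = 0 := by
  unfold T2.pair
  simp

theorem pair_zero_left (F : T2.Frame K) (h : G K → ℂ) :
    T2.pair F (fun _ => 0) h = 0 := by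
  unfold T2.pair
  simp

theorem pair_sum_left (F : T2.Frame K)
    (hadd : ∀ f₁ f₂ h : G K → ℂ, IsAut0 f₁ → IsAut0 f₂ → IsAut0 h →
      T2.pair F (fun x => f₁ x + f₂ x) h = T2.pair F f₁ h + T2.pair F f₂ h)
    {ι : Type} (s : Finset ι) (c : ι → ℂ) (f : ι → G K → ℂ) (hf : ∀ i, IsAut0 (f i))
    (h : G K → ℂ) (hh : IsAut0 h) :
    T2.pair F (fun x => ∑ i ∈ s, c i * f i x) h = ∑ i ∈ s, c i * T2.pair F (f i) h := by
  classical
  induction s using Finset.induction_on with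
  | empty => simpa using pair_zero_left F h
  | insert a s ha ih =>
    have h1 : (fun x => ∑ i ∈ insert a s, c i * f i x)
        = fun x => c a * f a x + ∑ i ∈ s, c i * f i x := by
      funext x
      rw [Finset.sum_insert ha]
    rw [h1, hadd _ _ h (isAut0_smul (c a) (hf a)) (isAut0_sum s c f hf) hh, ih,
      pair_smul_left, Finset.sum_insert ha]

theorem pair_sum_right (F : T2.Frame K)
    (hadd : ∀ f₁ f₂ h : G K → ℂ, IsAut0 f₁ → IsAut0 f₂ → IsAut0 h →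
      T2.pair F (fun x => f₁ x + f₂ x) h = T2.pair F f₁ h + T2.pair F f₂ h)
    {ι : Type} (s : Finset ι) (c : ι → ℂ) (f : ι → G K → ℂ) (hf : ∀ i, IsAut0 (f i))
    (h : G K → ℂ) (hh : IsAut0 h) :
    T2.pair F h (fun x => ∑ i ∈ s, c i * f i x)
      = ∑ i ∈ s, (starRingEnd ℂ) (c i) * T2.pair F h (f i) := by
  rw [pair_conj, pair_sum_left F hadd s c f hf h hh, map_sum]
  refine Finset.sum_congr rfl fun i _ => ?_
  rw [map_mul, ← pair_conj]

/-- The relations between the eigenvalues of two `GL₂(𝒪_v)`-invariant Hecke eigenfunctions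
which are not orthogonal: `b₁ conj b₂ = 1` and `a₁ = conj a₂ · b₁`. -/
theorem eig_rel (F : T2.Frame K)
    (hinv : ∀ (g : G K) (f₁ f₂ : G K → ℂ), IsAut0 f₁ → IsAut0 f₂ →
      T2.pair F (rt g f₁) (rt g f₂) = T2.pair F f₁ f₂)
    (hAdj : HeckeAdjC K) (v : HeightOneSpectrum (𝓞 K))
    (H : Finset (G K)) (hH : IsHeckeCosetSystem v H) (z : G K) (hz : IsScalarUniformizerAt v z)
    (f₁ f₂ : G K → ℂ) (a₁ b₁ a₂ b₂ : ℂ) (h₁ : IsAut0 f₁) (h₂ : IsAut0 f₂)
    (k₁ : IsKv v f₁) (k₂ : IsKv v f₂)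
    (e₁ : IsHeckeEigenAt f₁ v a₁ b₁) (e₂ : IsHeckeEigenAt f₂ v a₂ b₂)
    (hne : T2.pair F f₁ f₂ ≠ 0) :
    b₁ * (starRingEnd ℂ) b₂ = 1 ∧ a₁ = (starRingEnd ℂ) a₂ * b₁ := by
  set P := T2.pair F f₁ f₂ with hP
  set sq : ℂ := ((Real.sqrt (Ideal.absNorm v.asIdeal : ℝ) : ℝ) : ℂ) with hsq
  have hsq0 : sq ≠ 0 := by
    have h0 : (Ideal.absNorm v.asIdeal : ℝ) ≠ 0 := by
      have : Ideal.absNorm v.asIdeal ≠ 0 := by
        rw [Ne, Ideal.absNorm_eq_zero_iff]
        exact v.ne_bot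
      exact_mod_cast this
    have h1 : 0 < (Ideal.absNorm v.asIdeal : ℝ) :=
      lt_of_le_of_ne (Nat.cast_nonneg _) (Ne.symm h0)
    have h2 : Real.sqrt (Ideal.absNorm v.asIdeal : ℝ) ≠ 0 := (Real.sqrt_pos.mpr h1).ne'
    rw [hsq]
    exact_mod_cast h2
  -- the shifts
  have hz₁ : rt z f₁ = fun x => b₁ * f₁ x := by
    funext x
    exact e₁.2 z hz x
  have hz₂ : f₂ = fun x => b₂ * rt z⁻¹ f₂ x := by
    funext x
    have := e₂.2 z hz (x * z⁻¹)
    simp only [rt]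
    rw [← this]
    simp [mul_assoc]
  -- `S`-relation
  have hS : T2.pair F (rt z f₁) f₂ = T2.pair F f₁ (rt z⁻¹ f₂) := by
    have := hinv z⁻¹ (rt z f₁) f₂ (isAut0_rt z h₁) h₂
    rw [rt_rt, inv_mul_cancel, rt_one] at this
    exact this.symm
  have hS1 : b₁ * P = T2.pair F f₁ (rt z⁻¹ f₂) := by
    rw [← hS, hz₁, pair_smul_left]
  have hS2 : P = (starRingEnd ℂ) b₂ * (b₁ * P) := by
    rw [hS1, ← pair_smul_right, ← hz₂]
  have hb : b₁ * (starRingEnd ℂ) b₂ = 1 := by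
    have h3 : (b₁ * (starRingEnd ℂ) b₂ - 1) * P = 0 := by
      linear_combination -hS2
    rcases mul_eq_zero.mp h3 with h4 | h4
    · exact sub_eq_zero.mp h4
    · exact absurd h4 hne
  -- `T`-relation
  have hT₁ : T2.heckeSum H f₁ = fun x => (sq * a₁) * f₁ x := by
    funext x
    exact e₁.1 H hH x
  have hT₂ : rt z⁻¹ (T2.heckeSum H f₂) = fun x => (sq * a₂) * rt z⁻¹ f₂ x := by
    funext x
    exact e₂.1 H hH (x * z⁻¹)
  have hT := hAdj F v f₁ f₂ h₁ h₂ k₁ k₂ H hH z hz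
  rw [hT₁, hT₂, pair_smul_left, pair_smul_right, ← hS1] at hT
  have hsqc : (starRingEnd ℂ) sq = sq := by
    rw [hsq]
    exact Complex.conj_ofReal _
  rw [map_mul, hsqc] at hT
  have h5 : sq * ((a₁ - (starRingEnd ℂ) a₂ * b₁) * P) = 0 := by
    linear_combination hT
  rcases mul_eq_zero.mp h5 with h6 | h6
  · exact absurd h6 hsq0
  · rcases mul_eq_zero.mp h6 with h7 | h7
    · exact ⟨hb, sub_eq_zero.mp h7⟩
    · exact absurd h7 hne

variable (K)

/-- **STAGE B from its leaves.** -/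
theorem orth_of (hA : Aut0C K) (hP : PairC K) (hAdj : HeckeAdjC K) (hS : HeckeStripC K)
    (hB : BookC K) (hH : T1.HeckeCosetC K) (hF : T2.FrameExists K) : OrthC K := by
  intro π π' φ φ' hφ hφ' v₀ hv hv' n n' c g c' g' hadm hadm' heq hne
  obtain ⟨F⟩ := hF
  obtain ⟨hadd, hdef, hinv⟩ := hP F
  obtain ⟨hB1, hB2, hB3⟩ := hB
  obtain ⟨⟨H, hH'⟩, -, ⟨z, hz⟩⟩ := hH v₀
  have haφ := hA π φ hφ
  have haφ' := hA π' φ' hφ'
  have hl : lin c g φ = fun x => ∑ i ∈ Finset.univ, c i * rt (g i) φ x := rfl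
  have hl' : lin c' g' φ' = fun x => ∑ j ∈ Finset.univ, c' j * rt (g' j) φ' x := rfl
  have hΦ : IsAut0 (lin c g φ) := by
    rw [hl]
    exact isAut0_sum _ c _ fun i => isAut0_rt (g i) haφ
  have hΦ' : IsAut0 (lin c' g' φ') := by
    rw [hl']
    exact isAut0_sum _ c' _ fun j => isAut0_rt (g' j) haφ'
  obtain ⟨x, hx⟩ := hne
  have hPne : T2.pair F (lin c g φ) (lin c' g' φ') ≠ 0 := by
    rw [← heq]
    intro h0
    exact hx (hdef _ hΦ h0 x)
  have hexp : T2.pair F (lin c g φ) (lin c' g' φ')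
      = ∑ i, c i * ∑ j, (starRingEnd ℂ) (c' j) * T2.pair F (rt (g i) φ) (rt (g' j) φ') := by
    rw [hl, pair_sum_left F hadd _ c _ (fun i => isAut0_rt (g i) haφ) _ hΦ']
    refine Finset.sum_congr rfl fun i _ => ?_
    rw [hl', pair_sum_right F hadd _ c' _ (fun j => isAut0_rt (g' j) haφ') _
      (isAut0_rt (g i) haφ)]
  rw [hexp] at hPne
  obtain ⟨i, -, hi⟩ := Finset.exists_ne_zero_of_sum_ne_zero hPne
  obtain ⟨j, -, hj⟩ := Finset.exists_ne_zero_of_sum_ne_zero (right_ne_zero_of_mul hi)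
  have hij : T2.pair F (rt (g i) φ) (rt (g' j) φ') ≠ 0 := right_ne_zero_of_mul hj
  obtain ⟨p, q, u, hg, hp, hu, hq⟩ := hadm i
  obtain ⟨p', q', u', hg', hp', hu', hq'⟩ := hadm' j
  rw [hg, hg', ← rt_rt, ← rt_rt] at hij
  have hf : IsAut0 (rt q φ) := isAut0_rt q haφ
  have hf₂ : IsAut0 (rt q' φ') := isAut0_rt q' haφ'
  have hkf : IsKv v₀ (rt q φ) := hB2 v₀ q φ hq (hB1 π.level v₀ φ hv hφ.level_inv)
  have hkf₂ : IsKv v₀ (rt q' φ') := hB2 v₀ q' φ' hq' (hB1 π'.level v₀ φ' hv' hφ'.level_inv)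
  have hef : IsHeckeEigenAt (rt q φ) v₀ (π.a v₀) (π.b v₀) :=
    hB3 v₀ q φ _ _ hq (hφ.hecke v₀ hv)
  have hef₂ : IsHeckeEigenAt (rt q' φ') v₀ (π'.a v₀) (π'.b v₀) :=
    hB3 v₀ q' φ' _ _ hq' (hφ'.hecke v₀ hv')
  obtain ⟨κ, hκ⟩ := hS F v₀ (rt q φ) (rt q' φ') _ _ hf hf₂ hkf hkf₂ hef p p' u u' hp hp' hu hu'
  have hPff : T2.pair F (rt q φ) (rt q' φ') ≠ 0 := by
    intro h0
    apply hij
    rw [hκ, h0, mul_zero]
  have hPf₂ : T2.pair F (rt q' φ') (rt q' φ') ≠ 0 := by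
    intro h0
    have h1 : rt q' φ' = fun _ => 0 := funext (hdef _ hf₂ h0)
    apply hPff
    rw [h1]
    exact pair_zero_right F _
  obtain ⟨hb, ha⟩ := eig_rel F hinv hAdj v₀ H hH' z hz _ _ _ _ _ _ hf hf₂ hkf hkf₂ hef hef₂ hPff
  obtain ⟨hb', ha'⟩ :=
    eig_rel F hinv hAdj v₀ H hH' z hz _ _ _ _ _ _ hf₂ hf₂ hkf₂ hkf₂ hef₂ hef₂ hPf₂
  have hcb : (starRingEnd ℂ) (π'.b v₀) ≠ 0 := by
    intro h0
    rw [h0, mul_zero] at hb
    exact zero_ne_one hb
  have hbb : π.b v₀ = π'.b v₀ := by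
    have h2 : (π.b v₀ - π'.b v₀) * (starRingEnd ℂ) (π'.b v₀) = 0 := by
      linear_combination hb - hb'
    rcases mul_eq_zero.mp h2 with h3 | h3
    · exact sub_eq_zero.mp h3
    · exact absurd h3 hcb
  refine ⟨?_, hbb⟩
  rw [ha, hbb]
  exact ha'.symm

/-- **THE TOP of station T2.10 from the leaves** (the inputs `T1.T1Out`, `T3.GoodCharExistsC`,
`T3.CompleteNDC`, `T3.HaarScaleC`, `T2.FrameExists` are outputs of the towers T1, T3, T2). -/
theorem top (hT1 : T1.T1Out K) (hψ : T3.GoodCharExistsC K) (hC : T3.CompleteNDC K)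
    (hHS : T3.HaarScaleC K) (hF : T2.FrameExists K)
    (l01 : Leaf01 K) (l02 : Leaf02 K) (l03 : Leaf03 K) (l04 : Leaf04 K) (l05 : Leaf05 K)
    (l06 : Leaf06 K) (l07 : Leaf07 K) (l08 : Leaf08 K) (l09 : Leaf09 K) (l10 : Leaf10 K)
    (l11 : Leaf11 K) (l12 : Leaf12 K) (l13 : Leaf13 K) (l14 : Leaf14 K) (l15 : Leaf15 K)
    (l16 : Leaf16 K) : T2.SMO_AA K := by
  have hW : WhitDataExistsC K := l02 hT1 hψ
  have hE : ExtendC K := l05 hT1 (l03 hT1 hC hHS) l04
  have hTM : TorusMatchC K :=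
    l11 hT1 hE (l06 hT1) (l07 hT1) (l08 hT1) (l09 hT1) (l10 hT1)
  have hPair : PairC K := l13 hT1
  exact smoAA_of_stages K l01 (match_of K hW hTM hE)
    (orth_of K l12 hPair (l14 hT1 hPair) (l15 hT1 hPair) l16 hT1.heckeCoset hF)

/-- The top for a TOTALLY COMPLEX field (the case of the wall): the optional leaves
`Leaf01` (parity) and `Leaf09` (real places) are not needed. -/
theorem top_totCplx (hcx : ∀ w : InfinitePlace K, w.IsComplex)
    (hT1 : T1.T1Out K) (hψ : T3.GoodCharExistsC K) (hC : T3.CompleteNDC K)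
    (hHS : T3.HaarScaleC K) (hF : T2.FrameExists K)
    (l02 : Leaf02 K) (l03 : Leaf03 K) (l04 : Leaf04 K) (l05 : Leaf05 K)
    (l06 : Leaf06 K) (l07 : Leaf07 K) (l08 : Leaf08 K) (l10 : Leaf10 K)
    (l11 : Leaf11 K) (l12 : Leaf12 K) (l13 : Leaf13 K) (l14 : Leaf14 K) (l15 : Leaf15 K)
    (l16 : Leaf16 K) : T2.SMO_AA K := by
  refine top K hT1 hψ hC hHS hF (parityC_of_totCplx K hcx) l02 l03 l04 l05 l06 l07 l08 ?_ l10
    l11 l12 l13 l14 l15 l16
  intro _ ψ ν D _ w hw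
  exact absurd (hcx w) (InfinitePlace.not_isComplex_iff_isReal.mpr hw)

end Fermat.Agent.LT.T2.H941

end

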