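import Fermat.Agent.LT.T2.H941.SmoClosed
import Fermat.Agent.LT.T1.Closed

/-!
# Row LT, tower T2, station T2.10 `SMO_AA`: the UNCONDITIONAL statements (helper941)

OFF-MAIN.  `LT/T2/H941/SmoClosed.lean` (v5: all 14 leaves of the wall closed) on the CLOSED tower T1
(`LT/T1/Closed.lean` of helper54, `T1.t1Out K : T1.T1Out K`; byte-identical copies of helper54's
closure, rebuilt on the sub-architect's box).

For every TOTALLY COMPLEX number field `K`:
* `smoAA_uncond_totCplx : T2.SMO_AA K` (strong multiplicity one, adelic cusp forms of parameter `0`),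
* `smo_uncond_totCplx : T2.SMO K` (on `notion556`: the holomorphic alternative needs `[K : ℚ] = 1`),
* `match_uncond_totCplx : MatchC K` (a common non-zero vector of admissible translates).
For every number field: `orth_uncond : OrthC K`, `extend_uncond : ExtendC K`,
`whitDet_uncond : WhitDetC K`, `whitDataExists_uncond`, `unramTorus_uncond`, `archTorus_uncond`,
`cutoff_uncond`, `pair_uncond`, `heckeAdj_uncond`, `heckeStrip_uncond` (the Whittaker package and
the Petersson package, ready for T7).
-/

set_option autoImplicit false

open IsDedekindDomain NumberField MeasureTheory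
open Fermat.Agent.LT.H556.A0

noncomputable section

namespace Fermat.Agent.LT.T2.H941

variable (K : Type) [Field K] [NumberField K]

/-- A totally complex number field has degree `≠ 1`. -/
theorem finrank_ne_one_of_totCplx (hcx : ∀ w : InfinitePlace K, w.IsComplex) :
    Module.finrank ℚ K ≠ 1 := by
  classical
  intro h1
  have h := InfinitePlace.nrRealPlaces_eq_one_of_finrank_eq_one h1
  have hpos : 0 < Fintype.card { w : InfinitePlace K // w.IsReal } := by
    have e : Fintype.card { w : InfinitePlace K // w.IsReal } = InfinitePlace.nrRealPlaces K :=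
      Fintype.card_congr' rfl
    rw [e, h]
    exact Nat.one_pos
  obtain ⟨⟨w, hw⟩⟩ := Fintype.card_pos_iff.mp hpos
  exact InfinitePlace.not_isReal_iff_isComplex.mpr (hcx w) hw

/-! ## Every number field -/

theorem whitDataExists_uncond : WhitDataExistsC K := whitDataExists_closed K (T1.t1Out K)

theorem whitDet_uncond : WhitDetC K := whitDet_closed K (T1.t1Out K)

theorem extend_uncond : ExtendC K := extend_closed K (T1.t1Out K)

theorem unramTorus_uncond : UnramTorusC K := unramTorus_closed K

theorem archTorus_uncond : ArchTorusC K := archTorus_closed K (T1.t1Out K)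

theorem cutoff_uncond : CutoffC K := cutoff_closed K

theorem pair_uncond : PairC K := pair_closed K (T1.t1Out K)

theorem heckeAdj_uncond : HeckeAdjC K := heckeAdj_closed K (T1.t1Out K)

theorem heckeStrip_uncond : HeckeStripC K := heckeStrip_closed K (T1.t1Out K)

/-- **STAGE B**, every number field. -/
theorem orth_uncond : OrthC K := orth_closed K (T1.t1Out K)

/-- Every number field: `SMO_AA` from the two optional leaves of the real places. -/
theorem smoAA_uncond_of_real (R : SmoOpenReal K) : T2.SMO_AA K :=
  smoAA_of_real K (T1.t1Out K) R

/-! ## Totally complex fields -/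

/-- **STAGE A** for a totally complex field. -/
theorem match_uncond_totCplx (hcx : ∀ w : InfinitePlace K, w.IsComplex) : MatchC K :=
  match_totCplx K hcx (T1.t1Out K)

/-- **STRONG MULTIPLICITY ONE** for the adelic cusp forms of parameter `0` over a totally complex
number field, UNCONDITIONAL. -/
theorem smoAA_uncond_totCplx (hcx : ∀ w : InfinitePlace K, w.IsComplex) : T2.SMO_AA K :=
  smoAA_totCplx K hcx (T1.t1Out K)

/-- **STRONG MULTIPLICITY ONE on `notion556`** over a totally complex number field,
UNCONDITIONAL (the holomorphic alternative of the notion is empty in degree `≠ 1`). -/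
theorem smo_uncond_totCplx (hcx : ∀ w : InfinitePlace K, w.IsComplex) : T2.SMO K :=
  T2.top_smo K (smoAA_uncond_totCplx K hcx)
    (fun _ _ hπ _ _ _ _ _ => absurd hπ.1 (finrank_ne_one_of_totCplx K hcx))
    (fun _ _ _ hπ' _ _ _ _ => absurd hπ'.1 (finrank_ne_one_of_totCplx K hcx))

end Fermat.Agent.LT.T2.H941

end
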