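import Fermat.Agent.LT.T2.H941.SmoSpec
import Fermat.Agent.LT.T2.H655.WhitData
import Fermat.Agent.LT.T2.H79.WhitDet
import Fermat.Agent.LT.T2.H131.WeakApproxLeaf
import Fermat.Agent.LT.T2.H729.CondExistsLeaf
import Fermat.Agent.LT.T2.H952.Aut0
import Fermat.Agent.LT.T2.H250.PairC
import Fermat.Agent.LT.T2.H886.HeckeAdj
import Fermat.Agent.LT.T2.H333.Book
import Fermat.Agent.LT.T2.H255.UnramTorus
import Fermat.Agent.LT.T2.H879.HeckeStrip
import Fermat.Agent.LT.T2.H439.Extend
import Fermat.Agent.LT.T2.H557.Cutoff
import Fermat.Agent.LT.T2.H973.ArchClosed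
import Fermat.Agent.LT.T2.H23.TorusMatch
import Fermat.Agent.LT.T2.H245.Leaf01
import Fermat.Agent.LT.T3.H276.GoodChar
import Fermat.Agent.LT.T3.H57.Leaves
import Fermat.Agent.LT.T3.H354.HaarScale

/-!
# Row LT, tower T2, station T2.10 `SMO_AA`: INTEGRATION of the closed leaves (helper941)

OFF-MAIN.  Pattern of `LT/T2/Closed.lean` (helper130) and `LT/T3/Closed.lean` (helper14).  Closed
leaves are imported as byte-identical copies of the owners' files and rebuilt on the
sub-architect's box against `LT/T2/H941/SmoSpec.lean` v2 (sha256 14c4d13ef051), `LT/T2/Spec.lean`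
v3 (b934629ad535), `LT/T1/Spec.lean` (e8ae48d6010e), `LT/T3/Spec.lean` (44de320b8621),
`LT/H556/A0.lean` (66d3374a79ca).

| leaf | Prop | owner | file (sha256) | state |
|---|---|---|---|---|
| T2.10.01 | `ParityC` (optional, real places) | - | - | open, NOT needed for totally complex `K` |
| T2.10.02 | `WhitDataExistsC` | helper655 | `LT/T2/H655/WhitData.lean` (d40554daf513) | CLOSED |
| T2.10.03 | `WhitDetC` | helper79 | `LT/T2/H79/WhitDet.lean` (ade16f45d5c6) | CLOSED |
| T2.10.04 | `WeakApproxC` | helper131 | `LT/T2/H131/WeakApprox.lean` (ef5b2b3b0d87), `WeakApproxLeaf.lean` (dcd610429d4a) | CLOSED |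
| T2.10.05 | `ExtendC` (assembly) | helper439 | `LT/T2/H439/Extend.lean` (6dd57529aa53), `Gen.lean` (2bf31190820c), `Mult.lean` (ae9704f9406a), on `LT/H129/*`, `LT/T2/H429/Loc.lean`, `LT/T1/H793/*`, `LT/T1/H919/SiegelTools.lean` | CLOSED |
| T2.10.06 | `CondExistsC` | helper729 | `LT/T2/H729/CondExists.lean` (b3e924b0a262), `CondExistsLeaf.lean` (ffecc9a2d877) | CLOSED |
| T2.10.07 | `UnramTorusC` | helper255 (2nd owner; claimant helper881) | `LT/T2/H255/UnramTorus.lean` (4fb85dfd5caa), `UnramHecke.lean` (8b4b9ad3e441), `UnramLocal.lean` (c4fa3b1b3950), `WhitEquiv.lean` (0d7a394b7709), on `LT/H129/*` | CLOSED |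
| T2.10.08 | `ArchTorusC` | helper973 (sub-architect; 11 sub-leaves, rows 1199-1209: helper8, 264, 600, 546, 98, 309, 944, 59, 655, 708, 864) | `LT/T2/H973/ArchClosed.lean` (f5452ef82935), `ArchTop.lean` (de01e677b02f), `ArchSpec.lean` (6e234a4a0ea7) + the sub-leaf files | CLOSED |
| T2.10.09 | `ArchTorusRealC` (optional, real place) | - | - | open, NOT needed for totally complex `K` |
| T2.10.10 | `CutoffC` | helper557 | `LT/T2/H557/Cutoff.lean` (c212a442e866), `CutWhit`, `CutLevel`, `CutMat`, `CutLoc`, `CutLocal`, on `LT/H11/LC.lean`, `LT/T3/H237/ConstTerm.lean` | CLOSED |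
| T2.10.11 | `TorusMatchC` (assembly) | helper23 | `LT/T2/H23/TorusMatch.lean` (3d9e2b0ba070), `Idele`, `Whit`, `Level`, `Factor`, `Chain`, `Local` (2038 l.), on `LT/A2/H743/SingleAdele.lean` | CLOSED |
| T2.10.12 | `Aut0C` | helper952 | `LT/T2/H952/Aut0.lean` (6117cf10f8ad) | CLOSED |
| T2.10.13 | `PairC` | helper250 | `LT/T2/H250/PairC.lean` (5a21c301b629) | CLOSED |
| T2.10.14 | `HeckeAdjC` | helper886 | `LT/T2/H886/HeckeAdj.lean` (a445432913b7), `LT/H886/DoubleCoset.lean` (b089b141991b), on `LT/H129/*` (helper129) | CLOSED |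
| T2.10.15 | `HeckeStripC` | helper879 | `LT/T2/H879/HeckeStrip.lean` (175bbdeb9217), `StripLocal.lean` (a6a998ba9c75), `StripGlobal.lean` (35a7c729daf2), on `LT/H129/*` | CLOSED |
| T2.10.16 | `BookC` | helper333 | `LT/T2/H333/Book.lean` (0b93b13da85c) | CLOSED |

INPUTS of the other towers, all CLOSED from `T1.T1Out K`:
`T2.FrameExists` (helper245, `LT/T2/H245/Leaf01.lean`, 63cfff4c0258),
`T3.GoodCharExistsC` (helper276, `LT/T3/H276/GoodChar.lean`, 5fd14ccb02dc),
`T3.CompleteNDC` (helper57, `LT/T3/H57/Leaves.lean`, 0d8cd503a404),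
`T3.HaarScaleC` (helper354, `LT/T3/H354/HaarScale.lean`, a806a6e8af16).

STATE (v5, 15:00Z 28 Sep): ALL 14 LEAVES OF THE WALL ARE CLOSED.  `SmoOpen K` has NO field left
(it is kept, as `True`-like structure, so that the statements of v1-v4 stay valid):
`smoAA_totCplx : (∀ w, w.IsComplex) → T1.T1Out K → T2.SMO_AA K` and
`match_totCplx`, `torusMatch_totCplx`.  Only the two OPTIONAL leaves of the real places
(`SmoOpenReal K`) are open; they are not needed for a totally complex field.

`SmoOpen K` = the leaves that are still open (the case of the wall: `K` totally complex);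
`SmoOpenReal K` = the two optional leaves of the real places.

* `smoAA_of_open_totCplx : (∀ w, w.IsComplex) → T1.T1Out K → SmoOpen K → T2.SMO_AA K`,
* `smoAA_of_open : T1.T1Out K → SmoOpen K → SmoOpenReal K → T2.SMO_AA K`,
* STAGE B is CLOSED: `orth_closed : T1.T1Out K → OrthC K`
  (`orth_of_strip : T1.T1Out K → Leaf15 K → OrthC K` is kept),
* STAGE A (`MatchC`) from the open leaves: `match_of_open : T1.T1Out K → SmoOpen K → MatchC K`
  for a totally complex field.
-/

set_option autoImplicit false

open IsDedekindDomain NumberField MeasureTheory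
open Fermat.Agent.LT.H556.A0

noncomputable section

namespace Fermat.Agent.LT.T2.H941

variable (K : Type) [Field K] [NumberField K]

/-! ## The state of the station -/

/-- THE OPEN PART of station T2.10 (`K` totally complex): the leaves still to be proved.
v5: NO field is left. -/
structure SmoOpen (K : Type) [Field K] [NumberField K] : Prop where

/-- The two OPTIONAL leaves (real places); not needed for a totally complex field. -/
structure SmoOpenReal : Prop where
  /-- T2.10.01 (registry 1094): `ParityC`. -/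
  l01 : Leaf01 K
  /-- T2.10.09 (registry 1102): `ArchTorusRealC`. -/
  l09 : Leaf09 K

/-! ## The closed inputs of the other towers -/

/-- `T2.FrameExists` closed (helper245). -/
theorem frameExists_closed (h : T1.T1Out K) : T2.FrameExists K :=
  (T2.H245.leaf01_245 K h).1

/-- `T3.GoodCharExistsC` closed (helper276). -/
theorem goodCharExists_closed (h : T1.T1Out K) : T3.GoodCharExistsC K :=
  T3.H276.leaf_goodChar276 K h.locComp

/-- `T3.CompleteNDC` closed (helper57). -/
theorem completeND_closed (h : T1.T1Out K) : T3.CompleteNDC K :=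
  T3.H57.completeND57 K h.locComp h.adeleLattice h.addFundDom
    (T3.H57.perpND57 K h.locComp h.adeleLattice)

/-- `T3.HaarScaleC` closed (helper354). -/
theorem haarScale_closed (h : T1.T1Out K) : T3.HaarScaleC K :=
  T3.H354.haarScaleC_of K h.locComp h.addFundDom

/-! ## The closed leaves -/

/-- T2.10.02 closed (helper655). -/
theorem whitDataExists_closed (h : T1.T1Out K) : WhitDataExistsC K :=
  T2.H655.leaf02_655 K h (goodCharExists_closed K h)

/-- T2.10.03 closed (helper79). -/
theorem whitDet_closed (h : T1.T1Out K) : WhitDetC K :=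
  T2.H79.leaf03_79 K h (completeND_closed K h) (haarScale_closed K h)

/-- T2.10.04 closed (helper131). -/
theorem weakApprox_closed : WeakApproxC K :=
  T2.H131.leaf04_h131 K

/-- T2.10.06 closed (helper729). -/
theorem condExists_closed : CondExistsC K :=
  T2.H729.condExistsC729 K

/-- T2.10.07 closed (helper255). -/
theorem unramTorus_closed : UnramTorusC K :=
  T2.H255.unramTorusC255 K

/-- T2.10.12 closed (helper952). -/
theorem aut0_closed : Aut0C K :=
  T2.H952.aut0C952 K

/-- T2.10.13 closed (helper250). -/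
theorem pair_closed (h : T1.T1Out K) : PairC K :=
  T2.H250.leaf13_250 K h

/-- T2.10.14 closed (helper886). -/
theorem heckeAdj_closed (h : T1.T1Out K) : HeckeAdjC K :=
  T2.H886.leaf14_886 K h (pair_closed K h)

/-- T2.10.15 closed (helper879). -/
theorem heckeStrip_closed (h : T1.T1Out K) : HeckeStripC K :=
  T2.H879.heckeStripC_of_pairC879 (pair_closed K h)

/-- T2.10.16 closed (helper333). -/
theorem book_closed : BookC K :=
  T2.H333.bookC333 K

/-! ## The stages from the open leaves -/

/-- `ExtendC` from its assembly leaf. -/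
theorem extend_of_leaf (h : T1.T1Out K) (l05 : Leaf05 K) : ExtendC K :=
  l05 h (whitDet_closed K h) (weakApprox_closed K)

/-- T2.10.05 closed (helper439). -/
theorem extend_closed (h : T1.T1Out K) : ExtendC K :=
  extend_of_leaf K h (T2.H439.leaf05_h439 K)

/-- T2.10.08 closed (helper973 and the owners of the rows 1199-1209). -/
theorem archTorus_closed (h : T1.T1Out K) : ArchTorusC K :=
  T2.H973.leaf08_973 K h

/-- T2.10.10 closed (helper557). -/
theorem cutoff_closed : CutoffC K :=
  T2.H557.cutoffC557 K

/-- **STAGE B** (`OrthC`) is closed up to the leaf T2.10.15 `HeckeStripC`. -/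
theorem orth_of_strip (h : T1.T1Out K) (l15 : Leaf15 K) : OrthC K :=
  orth_of K (aut0_closed K) (pair_closed K h) (heckeAdj_closed K h) (l15 h (pair_closed K h))
    (book_closed K) h.heckeCoset (frameExists_closed K h)

/-- **STAGE B** (`OrthC`) is CLOSED. -/
theorem orth_closed (h : T1.T1Out K) : OrthC K :=
  orth_of_strip K h (fun _ hP => T2.H879.heckeStripC_of_pairC879 hP)

/-- T2.10.11, as an implication, closed (helper23). -/
theorem leaf11_closed : Leaf11 K :=
  T2.H23.leaf11_23 K

/-- `ArchTorusRealC` is vacuous over a totally complex field. -/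
theorem archTorusReal_of_totCplx (hcx : ∀ w : InfinitePlace K, w.IsComplex) :
    ArchTorusRealC K := by
  intro ψ ν D _ w hw
  exact absurd (hcx w) (InfinitePlace.not_isComplex_iff_isReal.mpr hw)

/-- `TorusMatchC` from the open leaves (`K` totally complex). -/
theorem torusMatch_of_open (hcx : ∀ w : InfinitePlace K, w.IsComplex) (h : T1.T1Out K)
    (_O : SmoOpen K) : TorusMatchC K :=
  leaf11_closed K h (extend_closed K h) (condExists_closed K) (unramTorus_closed K)
    (archTorus_closed K h) (archTorusReal_of_totCplx K hcx) (cutoff_closed K)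

/-- **STAGE A** (`MatchC`) from the open leaves (`K` totally complex). -/
theorem match_of_open (hcx : ∀ w : InfinitePlace K, w.IsComplex) (h : T1.T1Out K)
    (O : SmoOpen K) : MatchC K :=
  match_of K (whitDataExists_closed K h) (torusMatch_of_open K hcx h O)
    (extend_closed K h)

/-- **STATE OF THE STATION**: `SMO_AA` from the output of T1 and the open leaves. -/
theorem smoAA_of_open (h : T1.T1Out K) (_O : SmoOpen K) (R : SmoOpenReal K) : T2.SMO_AA K :=
  top K h (goodCharExists_closed K h) (completeND_closed K h) (haarScale_closed K h)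
    (frameExists_closed K h) R.l01 (T2.H655.leaf02_655 K) (T2.H79.leaf03_79 K)
    (T2.H131.leaf04_h131 K) (T2.H439.leaf05_h439 K) (T2.H729.leaf06_729 K)
    (T2.H255.leaf07_255 K) (T2.H973.leaf08_973 K) R.l09 (T2.H557.leaf10_557 K)
    (T2.H23.leaf11_23 K)
    (T2.H952.aut0C952 K) (T2.H250.leaf13_250 K) (T2.H886.leaf14_886 K)
    (fun _ hP => T2.H879.heckeStripC_of_pairC879 hP)
    (T2.H333.leaf16_333 K)

/-- **STATE OF THE STATION, the case of the wall** (`K` totally complex): `SMO_AA` from the output
of T1 (no open leaf is left). -/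
theorem smoAA_of_open_totCplx (hcx : ∀ w : InfinitePlace K, w.IsComplex) (h : T1.T1Out K)
    (_O : SmoOpen K) : T2.SMO_AA K :=
  top_totCplx K hcx h (goodCharExists_closed K h) (completeND_closed K h) (haarScale_closed K h)
    (frameExists_closed K h) (T2.H655.leaf02_655 K) (T2.H79.leaf03_79 K)
    (T2.H131.leaf04_h131 K) (T2.H439.leaf05_h439 K) (T2.H729.leaf06_729 K)
    (T2.H255.leaf07_255 K) (T2.H973.leaf08_973 K) (T2.H557.leaf10_557 K)
    (T2.H23.leaf11_23 K)
    (T2.H952.aut0C952 K) (T2.H250.leaf13_250 K) (T2.H886.leaf14_886 K)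
    (fun _ hP => T2.H879.heckeStripC_of_pairC879 hP)
    (T2.H333.leaf16_333 K)

/-! ## The station is CLOSED for totally complex fields -/

/-- Nothing is open. -/
theorem smoOpen_closed : SmoOpen K := ⟨⟩

/-- `TorusMatchC` for a totally complex field. -/
theorem torusMatch_totCplx (hcx : ∀ w : InfinitePlace K, w.IsComplex) (h : T1.T1Out K) :
    TorusMatchC K :=
  torusMatch_of_open K hcx h (smoOpen_closed K)

/-- **STAGE A** (`MatchC`) for a totally complex field. -/
theorem match_totCplx (hcx : ∀ w : InfinitePlace K, w.IsComplex) (h : T1.T1Out K) : MatchC K :=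
  match_of_open K hcx h (smoOpen_closed K)

/-- **STATION T2.10 CLOSED for totally complex fields**: strong multiplicity one for the adelic
cusp forms of parameter `0`, from the output of tower T1. -/
theorem smoAA_totCplx (hcx : ∀ w : InfinitePlace K, w.IsComplex) (h : T1.T1Out K) :
    T2.SMO_AA K :=
  smoAA_of_open_totCplx K hcx h (smoOpen_closed K)

/-- Every number field: `SMO_AA` from the output of T1 and the two optional leaves of the real
places. -/
theorem smoAA_of_real (h : T1.T1Out K) (R : SmoOpenReal K) : T2.SMO_AA K :=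
  smoAA_of_open K h (smoOpen_closed K) R

end Fermat.Agent.LT.T2.H941

end
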